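import Fermat.Agent.S44.Top
import Fermat.Agent.TW.ESide.Ram2
import Fermat.Agent.GAL.Final
import Fermat.Agent.RR.Hurwitz

/-!
# S44 / [EVEN] : a level at which the Frey representation is modular is even

`P.IsConductorLevel N` does not say that `2 ∣ N`.  If `2 ∤ N` then `J₀(N)[p]` is unramified at `2`
(`GAL.Final.es`), `E[p]` embeds equivariantly into the eigen-subgroup of `J₀(N)[p]` (`S40.Alg.exists_embedding`), so
`E[p]` is unramified at `2` : contradiction with [RAM2] (`TW.ESide.frey_exists_inertia_two_ne`).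
-/

set_option autoImplicit false

noncomputable section

open AlgebraicCurve ModularCurve CongruenceSubgroup WeierstrassCurve

namespace Fermat.Agent.S44

open Fermat.Agent.GAL Fermat.Agent.GAL.PC Fermat.Agent.SS Fermat.Agent.S58 Fermat.Agent.S40
open scoped WeierstrassCurve.Affine

local notation "Qbar" => AlgebraicClosure ℚ
local notation "GQ" => (AlgebraicClosure ℚ ≃ₐ[ℚ] AlgebraicClosure ℚ)

/-- the first half of `S40.top_abstract` : an equivariant embedding `V → Y`. -/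
theorem exists_equivariant_embedding {p : ℕ} [Fact p.Prime] (hp2 : p ≠ 2) {V Y : Type*}
    [AddCommGroup V] [Module (ZMod p) V] [DistribMulAction GQ V]
    [AddCommGroup Y] [Module (ZMod p) Y] [DistribMulAction GQ Y]
    (P : GQ → ℤ)
    (hPV : ∀ (σ : GQ) (v : V), σ • v + (cycloChar p σ : ZMod p).val • σ⁻¹ • v = P σ • v)
    (hPY : ∀ (σ : GQ) (y : Y), σ • y + (cycloChar p σ : ZMod p).val • σ⁻¹ • y = P σ • y)
    (hcard : Nat.card V = p ^ 2)
    (hirr : ∀ N : Submodule (ZMod p) V, (∀ σ : GQ, ∀ v ∈ N, σ • v ∈ N) → N = ⊥ ∨ N = ⊤)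
    (hY0 : ∃ y : Y, y ≠ 0) :
    ∃ ι : V →ₗ[ZMod p] Y, Function.Injective ι ∧ ∀ (σ : GQ) (v : V), ι (σ • v) = σ • ι v := by
  have hp : p.Prime := Fact.out
  have hQV : Alg.QuadRel (repOf p GQ V) (fun σ => ((P σ : ℤ) : ZMod p)) (chiP p) := by
    intro σ
    ext v
    have e1 : chiP p σ • (σ⁻¹ • v) = (cycloChar p σ : ZMod p).val • (σ⁻¹ • v) :=
      zmod_smul_eq_val_nsmul _ _
    have e2 : ((P σ : ℤ) : ZMod p) • v = P σ • v := Int.cast_smul_eq_zsmul (ZMod p) _ _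
    change σ • v + chiP p σ • (σ⁻¹ • v) = ((P σ : ℤ) : ZMod p) • v
    rw [e1, e2]
    exact hPV σ v
  have hQY : Alg.QuadRel (repOf p GQ Y) (fun σ => ((P σ : ℤ) : ZMod p)) (chiP p) := by
    intro σ
    ext y
    have e1 : chiP p σ • (σ⁻¹ • y) = (cycloChar p σ : ZMod p).val • (σ⁻¹ • y) :=
      zmod_smul_eq_val_nsmul _ _
    have e2 : ((P σ : ℤ) : ZMod p) • y = P σ • y := Int.cast_smul_eq_zsmul (ZMod p) _ _
    change σ • y + chiP p σ • (σ⁻¹ • y) = ((P σ : ℤ) : ZMod p) • y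
    rw [e1, e2]
    exact hPY σ y
  have hfin : Finite V := Nat.finite_of_card_ne_zero (by rw [hcard]; exact pow_ne_zero _ hp.ne_zero)
  have hdim : Module.finrank (ZMod p) V = 2 := by
    have h1 := Module.natCard_eq_pow_finrank (K := ZMod p) (V := V)
    rw [hcard, Nat.card_zmod] at h1
    exact (Nat.pow_right_injective hp.two_le h1).symm
  have hirr' : ∀ N : Submodule (ZMod p) V, (∀ σ : GQ, ∀ v ∈ N, repOf p GQ V σ v ∈ N) →
      N = ⊥ ∨ N = ⊤ := hirr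
  have h2 : (2 : ZMod p) ≠ 0 := by
    intro h0
    have h1 : ((2 : ℕ) : ZMod p) = 0 := by exact_mod_cast h0
    rw [ZMod.natCast_eq_zero_iff] at h1
    exact hp2 ((Nat.prime_dvd_prime_iff_eq hp Nat.prime_two).1 h1)
  obtain ⟨c₀, hc₀, hc₀χ⟩ := exists_complexConj
  obtain ⟨ι, hιinj, hιeq⟩ := Alg.exists_embedding h2 hQV hQY hdim hirr' hc₀
    (by rw [chiP_apply, hc₀χ p]) hY0
  exact ⟨ι, hιinj, hιeq⟩

/-- `W[p]` is unramified at the primes `q ∤ M p` if `W` is residually modular of level `M`. -/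
theorem unramified_of_residuallyModular (W : WeierstrassCurve ℤ) (hΔ : W.Δ ≠ 0) {p M : ℕ}
    [NeZero M] (hp : p.Prime) (hp2 : p ≠ 2) (hirr : W.ModRepIsIrreducible p)
    (hmod : W.IsResiduallyModularOfLevel p M) {q : ℕ} (hq : q.Prime) (hqM : ¬ q ∣ M * p)
    (A : ValuationSubring Qbar) (hA : A.LiesOverPrime q) (σ : GQ)
    (hσ : σ ∈ A.inertiaSubgroupIn ℚ) (v : EQ W) (hv : p • v = 0) : σ • v = v := by
  classical
  have : Fact p.Prime := ⟨hp⟩
  have : NeZero p := ⟨hp.ne_zero⟩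
  have hM : M ≠ 0 := NeZero.ne M
  have hodd : Odd p := hp.eq_two_or_odd'.resolve_left hp2
  have hVp : ∀ v : Submodule.torsionBy ℤ (EQ W) (p : ℤ), p • (v : EQ W) = 0 := by
    intro v
    have := v.2
    rwa [Submodule.mem_torsionBy_iff, natCast_zsmul] at this
  obtain ⟨f, 𝔪, hf, hmax, hpm, hcong⟩ := hmod
  obtain ⟨y₀, hy₀, hy₀0⟩ := exists_ne_zero_mem_eigA (S := (↑(badS W p M) : Set ℕ))
    (a := apW W) hp f 𝔪 hf hmax
    hpm (fun ℓ hℓ hℓS => ((notMem_badS_iff hΔ hM hℓ).1 hℓS).2.1)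
    (fun ℓ hℓ hℓS => by
      obtain ⟨h1, h2, h3⟩ := (notMem_badS_iff hΔ hM hℓ).1 hℓS
      exact hcong ℓ hℓ h1 h2 h3)
  obtain ⟨P, hPV, hPY⟩ := exists_quad W hΔ (M := M) hp hp2
  have hΔQ : (W.map (Int.castRingHom ℚ)).Δ ≠ 0 := by
    rw [map_Δ]; simpa using hΔ
  have hpQ : ((p : ℕ) : Qbar) ≠ 0 := by exact_mod_cast hp.ne_zero
  have hcard : Nat.card (Submodule.torsionBy ℤ (EQ W) (p : ℤ)) = p ^ 2 :=
    HW.card_torsionBy (k := Qbar) (W.map (Int.castRingHom ℚ)) two_ne_zero hΔQ hodd hpQ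
  obtain ⟨ι, hιinj, hιeq⟩ := exists_equivariant_embedding (p := p) hp2
    (V := Submodule.torsionBy ℤ (EQ W) (p : ℤ))
    (Y := eigA M p (↑(badS W p M) : Set ℕ) (apW W)) P
    (fun σ v => Subtype.ext (hPV σ v (hVp v))) (fun σ y => Subtype.ext (hPY σ y y.2)) hcard
    (fun N hN => hirr.2 N hN) ⟨⟨y₀, hy₀⟩, fun h => hy₀0 (congrArg Subtype.val h)⟩
  have hes := (Fermat.Agent.GAL.Final.es
    (fun _ _ _ _ _ _ _ _ _ _ _ _ h1 h2 => Fermat.Agent.RR.rhRel h1 h2) M p).1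
  set v' : Submodule.torsionBy ℤ (EQ W) (p : ℤ) :=
    ⟨v, by rw [Submodule.mem_torsionBy_iff, natCast_zsmul]; exact hv⟩ with hv'
  have h1 : σ • (ι v' : JZero M) = (ι v' : JZero M) :=
    hes q hq hqM A hA σ hσ _ ⟨1, by rw [pow_one]; exact (ι v').2.1⟩
  have h2 : ι (σ • v') = ι v' := by
    rw [hιeq]
    exact Subtype.ext h1
  exact congrArg Subtype.val (hιinj h2)

/-- **[EVEN]** -/
theorem two_dvd_of_modular (P : FreyPackage) {N : ℕ} (hN : 0 < N)
    (hirr : Affine.Point.GaloisRepIsIrreducible (K := AlgebraicClosure ℚ) ℚ P.freyCurve P.p)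
    (hmod : P.ModularRepOfLevel N) : 2 ∣ N := by
  classical
  by_contra h2N
  have hp := P.pp
  have hp2 : P.p ≠ 2 := by have := P.hp5; omega
  have : NeZero N := ⟨hN.ne'⟩
  obtain ⟨f, W, 𝔪, hf, hW, hmax, hpm, hcong⟩ := hmod
  have hirrW : W.ModRepIsIrreducible P.p := by
    obtain ⟨C, hC⟩ := hW
    exact HW.irreducible_of_variableChange C hC P.p hirr
  have hres : W.IsResiduallyModularOfLevel P.p N := ⟨f, 𝔪, hf, hmax, hpm, hcong⟩
  obtain ⟨A, hA⟩ := Fermat.Agent.S54.exists_liesOverPrime Nat.prime_two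
  obtain ⟨σ, hσ, Q, hpQ, hne⟩ := Fermat.Agent.TW.ESide.frey_exists_inertia_two_ne P A hA
  have h2Np : ¬ 2 ∣ N * P.p := by
    intro hd
    rcases (Nat.Prime.dvd_mul Nat.prime_two).1 hd with h | h
    · exact h2N h
    · exact hp2 ((Nat.prime_dvd_prime_iff_eq Nat.prime_two hp).1 h).symm
  obtain ⟨C, hC⟩ := hW
  obtain ⟨e, he⟩ := HW.exists_addEquiv_of_variableChange (K := Qbar) C hC
  apply hne
  apply e.injective
  rw [he]
  exact unramified_of_residuallyModular W (model_Δ_ne_zero P ⟨C, hC⟩) hp hp2 hirrW hres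
    Nat.prime_two h2Np A hA σ hσ (e Q) (by rw [← map_nsmul, hpQ, map_zero])

end Fermat.Agent.S44
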