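import Fermat.Agent.S44.Top

/-!
# S44 / TOP2 : S44 from `GeoA M' p ∧ GeoB M' p` for EVEN `M'` only (and `5 ≤ p`)

Same proof as `s44_of_geo` (`S44/Top.lean`); the geometric statements are only needed at `M' = N / p`, which is even as soon as
`2 ∣ N` (helper62's `S44/Even.lean`: `2 ∣ N` follows from the ramification of `E[p]` at `2`).
-/

set_option autoImplicit false

noncomputable section

open AlgebraicCurve ModularCurve CongruenceSubgroup WeierstrassCurve

namespace Fermat.Agent.S44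

open Fermat.Agent.GAL Fermat.Agent.GAL.PC Fermat.Agent.SS Fermat.Agent.S58 Fermat.Agent.S40
open scoped WeierstrassCurve.Affine

/-- **S44 from the two geometric statements at the even levels.** -/
theorem s44_of_geo_even (P : FreyPackage) {N : ℕ} (hcond : P.IsConductorLevel N) (hpN : P.p ∣ N)
    (hirr : Affine.Point.GaloisRepIsIrreducible (K := AlgebraicClosure ℚ) ℚ P.freyCurve P.p)
    (hmod : P.ModularRepOfLevel N) (h2 : 2 ∣ N)
    (hgeo : ∀ M' : ℕ, ∀ [NeZero M'] [NeZero P.p], ¬ P.p ∣ M' → 2 ∣ M' →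
      GeoA M' P.p ∧ GeoB M' P.p) :
    ∃ M : ℕ, M ∣ N ∧ ¬ P.p ∣ M ∧ P.ModularRepOfLevel M := by
  classical
  obtain ⟨M', rfl⟩ := hpN
  have hp := P.pp
  have hp2 : P.p ≠ 2 := by have := P.hp5; omega
  have : NeZero P.p := ⟨hp.ne_zero⟩
  have hM'0 : M' ≠ 0 := by
    rintro rfl
    exact absurd hcond.pos (by simp)
  have : NeZero M' := ⟨hM'0⟩
  have hpM' : ¬ P.p ∣ M' := by
    intro hd
    apply hcond.sq_not_dvd hp
    rw [pow_two]
    exact Nat.mul_dvd_mul_left _ hd
  have h2M' : 2 ∣ M' := by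
    rcases (Nat.Prime.dvd_mul Nat.prime_two).1 h2 with h | h
    · exact absurd ((Nat.prime_dvd_prime_iff_eq Nat.prime_two hp).1 h).symm hp2
    · exact h
  obtain ⟨f, W, 𝔪, hf, hW, hmax, hpm, hcong⟩ := hmod
  obtain ⟨hGA, hGB⟩ := hgeo M' hpM' h2M'
  have hirrW : W.ModRepIsIrreducible P.p := by
    obtain ⟨C, hC⟩ := hW
    exact HW.irreducible_of_variableChange C hC P.p hirr
  have hres : W.IsResiduallyModularOfLevel P.p (M' * P.p) := by
    rw [mul_comm]
    exact ⟨f, 𝔪, hf, hmax, hpm, hcong⟩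
  obtain ⟨g, 𝔪', hg, hmax', hpm', hcong'⟩ := top40_of_littleRam W (model_Δ_ne_zero P hW) hp hp2
    hirrW (fun A hA Q t hQ ht ht0 hχ _ =>
      littleRam_of_model P (hcond.p_dvd_abc (Dvd.intro _ rfl)) hW A hA Q t hQ ht ht0 hχ) hGA hGB hres
  exact ⟨M', Dvd.intro_left _ rfl, hpM', g, W, 𝔪', hg, hW, hmax', hpm', hcong'⟩

end Fermat.Agent.S44
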