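import Fermat.Agent.S44.Top
import Fermat.Agent.S40.Geo.Spec
import Fermat.Statements.S44

/-!
# S44 : candidate for `Fermat/Agent/S44.lean`

`s44` below has the exact frozen statement; it becomes `Fermat.Agent.S44.result` (copy into `Fermat/Agent/S44.lean`) as soon as
`S40.geoA` and `S40.geoB` (`S40/Geo/Spec.lean`; only `5 ≤ p` is needed here) are sorry-free.
-/

set_option autoImplicit false
open WeierstrassCurve WeierstrassCurve.Affine WeierstrassCurve.Affine.Point
open CuspForm ModularFormClass UpperHalfPlane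
open FreyPackage

namespace Fermat.Agent.S44

theorem s44 (P : FreyPackage) {N : ℕ} (hcond : P.IsConductorLevel N) (hpN : P.p ∣ N) (hirr : GaloisRepIsIrreducible (K := AlgebraicClosure ℚ) ℚ P.freyCurve P.p) (hmod : P.ModularRepOfLevel N) : ∃ M : ℕ, M ∣ N ∧ ¬ P.p ∣ M ∧ P.ModularRepOfLevel M :=
  s44_of_geo P hcond hpN hirr hmod fun _ _ _ hpM' =>
    have hp2 : P.p ≠ 2 := by have := P.hp5; omega
    ⟨S40.geoA P.pp hp2 hpM', S40.geoB P.pp hp2 hpM'⟩

end Fermat.Agent.S44
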