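import Fermat.Agent.S44.Top2
import Fermat.Agent.S44.Even
import Fermat.Agent.S40.Geo.Spec
import Fermat.Statements.S44

/-!
# S44 : candidate for `Fermat/Agent/S44.lean`, second version

`s44'` has the exact frozen statement.  It only uses `GeoA M' p`, `GeoB M' p` for EVEN `M'` (`s44_of_geo_even`, `two_dvd_of_modular`).
-/

set_option autoImplicit false
open WeierstrassCurve WeierstrassCurve.Affine WeierstrassCurve.Affine.Point
open CuspForm ModularFormClass UpperHalfPlane
open FreyPackage

namespace Fermat.Agent.S44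

theorem s44' (P : FreyPackage) {N : ℕ} (hcond : P.IsConductorLevel N) (hpN : P.p ∣ N) (hirr : GaloisRepIsIrreducible (K := AlgebraicClosure ℚ) ℚ P.freyCurve P.p) (hmod : P.ModularRepOfLevel N) : ∃ M : ℕ, M ∣ N ∧ ¬ P.p ∣ M ∧ P.ModularRepOfLevel M :=
  s44_of_geo_even P hcond hpN hirr hmod (two_dvd_of_modular P hcond.pos hirr hmod)
    fun _ _ _ hpM' _ =>
      have hp2 : P.p ≠ 2 := by have := P.hp5; omega
      ⟨S40.geoA P.pp hp2 hpM', S40.geoB P.pp hp2 hpM'⟩

end Fermat.Agent.S44
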