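import Fermat.Agent.S40.Top
import Fermat.Agent.S44.ESide.Main
import Fermat.Prelude.Def_FreyPackage_IsConductorLevel

/-!
# S44 / TOP : `GeoA M' p ∧ GeoB M' p ⟹` S44   (architect: helper39)

* (`S40.top40_of_littleRam` : helper38's TOP with the E-side, `LittleRam` on `W[p]`, as a HYPOTHESIS instead of good reduction;)
* `frey_littleRam` : the E-side for the Frey curve at `p ∣ abc` in the language of `S40/Defs.lean`;
* `littleRam_of_model` : transport to an arbitrary integral model of the Frey curve;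
* `s44_of_geo` : the statement of S44 from `GeoA (N / p) p` and `GeoB (N / p) p`.
-/

set_option autoImplicit false

noncomputable section

open AlgebraicCurve ModularCurve CongruenceSubgroup WeierstrassCurve

namespace Fermat.Agent.S44

open Fermat.Agent.GAL Fermat.Agent.GAL.PC Fermat.Agent.SS Fermat.Agent.S58 Fermat.Agent.S40
open scoped WeierstrassCurve.Affine

local notation "Qbar" => AlgebraicClosure ℚ
local notation "GQ" => (AlgebraicClosure ℚ ≃ₐ[ℚ] AlgebraicClosure ℚ)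

/-- the E-side for the Frey curve at `p ∣ abc`, in the language of `S40/Defs.lean`. -/
theorem frey_littleRam (P : FreyPackage) (hdvd : (P.p : ℤ) ∣ P.a * P.b * P.c)
    [NeZero P.p] {A : ValuationSubring Qbar} (hA : A.LiesOverPrime P.p)
    {t Q : (P.freyCurve.toAffine⁄Qbar).Point} (ht : t ≠ 0) (hpt : P.p • t = 0)
    (hpQ : P.p • Q = 0) (hχ : ActsChi P.p A t) : LittleRam P.p A Q := by
  classical
  have hp := P.pp
  have : Fact P.p.Prime := ⟨hp⟩
  intro σ hσ hσ1 hσP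
  obtain ⟨ζ₀, hζ₀⟩ := HasEnoughRootsOfUnity.exists_primitiveRoot Qbar P.p
  have hχ' : ∀ τ ∈ A.inertiaSubgroupIn ℚ, ∀ c : ℕ, τ ζ₀ = ζ₀ ^ c → τ • t = c • t := by
    intro τ hτ c hc
    rw [hχ τ hτ, cycloChar_eq_of_primitiveRoot P.p τ hζ₀ hc, ZMod.val_natCast]
    exact (HW.AtP.nsmul_eq_mod_nsmul hpt c).symm
  have hσζ : σ ζ₀ = ζ₀ := by
    have h := cycloChar_spec P.p σ hζ₀.pow_eq_one
    rw [hσ1, Units.val_one, ZMod.val_one, pow_one] at h
    exact h
  obtain ⟨b, hb, hfix, hval⟩ :=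
    ESide.frey_wild_witness P hdvd hA hζ₀ ht hpt hpQ hχ' hσ hσζ hσP
  refine ⟨b, hb, fun τ _ hτ => hfix τ hτ, fun ζ hζ hζ1 => ?_⟩
  have hζp : IsPrimitiveRoot ζ P.p := by
    have := orderOf_eq_prime hζ hζ1
    rw [← this]
    exact IsPrimitiveRoot.orderOf ζ
  have e1 := S36.valuation_one_sub_zeta_pow hp hA hζp
  have e2 := S36.valuation_one_sub_zeta_pow hp hA hζ₀
  have e3 : A.valuation (1 - ζ) = A.valuation (1 - ζ₀) := by
    have hp1 : P.p - 1 ≠ 0 := by have := hp.two_le; omega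
    exact (pow_left_inj₀ zero_le zero_le hp1).1 (e1.trans e2.symm)
  rw [← Valuation.map_neg, neg_sub, e3, ← Valuation.map_neg, neg_sub]
  exact hval

/-- transport of `ActsChi` along an equivariant additive isomorphism. -/
theorem actsChi_of_equiv {p : ℕ} [NeZero p] {A : ValuationSubring Qbar} {X Y : Type*}
    [AddCommGroup X] [AddCommGroup Y] [SMul GQ X] [SMul GQ Y] (f : X ≃+ Y)
    (hf : ∀ (σ : GQ) (x : X), f (σ • x) = σ • f x) {x : X} (h : ActsChi p A (f x)) :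
    ActsChi p A x := by
  intro τ hτ
  apply f.injective
  rw [hf, map_nsmul]
  exact h τ hτ

/-- transport of `LittleRam` along an equivariant bijection. -/
theorem littleRam_of_equiv {p : ℕ} [NeZero p] {A : ValuationSubring Qbar} {X Y : Type*}
    [SMul GQ X] [SMul GQ Y] (f : X → Y) (hinj : Function.Injective f)
    (hf : ∀ (σ : GQ) (x : X), f (σ • x) = σ • f x) {x : X} (h : LittleRam p A x) :
    LittleRam p A (f x) := by
  intro σ hσ hσχ hσx
  obtain ⟨b, hb, hbfix, hbval⟩ := h σ hσ hσχ (fun h' => hσx (by rw [← hf, h']))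
  refine ⟨b, hb, fun τ hτ hτx => hbfix τ hτ (hinj ?_), hbval⟩
  rw [hf, hτx]

/-- the E-side for an arbitrary integral model of the Frey curve. -/
theorem littleRam_of_model (P : FreyPackage) (hdvd : (P.p : ℤ) ∣ P.a * P.b * P.c) [NeZero P.p]
    {W : WeierstrassCurve ℤ} (hW : W.IsIntegralModelOf P.freyCurve)
    (A : ValuationSubring Qbar) (hA : A.LiesOverPrime P.p) (Q t : EQ W) (hpQ : P.p • Q = 0)
    (hpt : P.p • t = 0) (ht : t ≠ 0) (hχ : ActsChi P.p A t) : LittleRam P.p A Q := by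
  classical
  obtain ⟨C, hC⟩ := hW
  obtain ⟨f, hf⟩ := HW.exists_addEquiv_of_variableChange (K := Qbar) C hC
  obtain ⟨Q', rfl⟩ := f.surjective Q
  obtain ⟨t', rfl⟩ := f.surjective t
  refine littleRam_of_equiv f f.injective hf ?_
  refine frey_littleRam P hdvd hA (t := t') (fun h => ht (by rw [h, map_zero])) ?_ ?_
    (actsChi_of_equiv f hf hχ)
  · apply f.injective; rw [map_nsmul, hpt, map_zero]
  · apply f.injective; rw [map_nsmul, hpQ, map_zero]

theorem freyCurve_Δ_ne_zero (P : FreyPackage) : P.freyCurve.Δ ≠ 0 := by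
  have hΔ : P.freyCurve.Δ
      = ((P.a : ℚ) ^ P.p * (P.b : ℚ) ^ P.p * ((P.a : ℚ) ^ P.p + (P.b : ℚ) ^ P.p)) ^ 2 / 256 := by
    simp only [WeierstrassCurve.Δ, WeierstrassCurve.b₂, WeierstrassCurve.b₄, WeierstrassCurve.b₆,
      WeierstrassCurve.b₈, FreyPackage.freyCurve]
    field_simp
    ring
  have hc : (P.a : ℚ) ^ P.p + (P.b : ℚ) ^ P.p = (P.c : ℚ) ^ P.p := by
    exact_mod_cast congrArg (Int.cast : ℤ → ℚ) P.hFLT
  rw [hΔ, hc]
  have ha : (P.a : ℚ) ≠ 0 := by exact_mod_cast P.ha0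
  have hb : (P.b : ℚ) ≠ 0 := by exact_mod_cast P.hb0
  have hc' : (P.c : ℚ) ≠ 0 := by exact_mod_cast P.hc0
  positivity

theorem model_Δ_ne_zero (P : FreyPackage) {W : WeierstrassCurve ℤ}
    (hW : W.IsIntegralModelOf P.freyCurve) : W.Δ ≠ 0 := by
  obtain ⟨C, hC⟩ := hW
  intro h0
  have h1 : (W.map (Int.castRingHom ℚ)).Δ = 0 := by rw [map_Δ, h0, map_zero]
  rw [← hC, variableChange_Δ] at h1
  rcases mul_eq_zero.1 h1 with h | h
  · exact (pow_ne_zero 12 (Units.ne_zero _)) h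
  · exact freyCurve_Δ_ne_zero P h

/-- **S44 from the two geometric statements.** -/
theorem s44_of_geo (P : FreyPackage) {N : ℕ} (hcond : P.IsConductorLevel N) (hpN : P.p ∣ N)
    (hirr : Affine.Point.GaloisRepIsIrreducible (K := AlgebraicClosure ℚ) ℚ P.freyCurve P.p)
    (hmod : P.ModularRepOfLevel N)
    (hgeo : ∀ M' : ℕ, ∀ [NeZero M'] [NeZero P.p], ¬ P.p ∣ M' → GeoA M' P.p ∧ GeoB M' P.p) :
    ∃ M : ℕ, M ∣ N ∧ ¬ P.p ∣ M ∧ P.ModularRepOfLevel M := by
  classical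
  obtain ⟨M', rfl⟩ := hpN
  have hp := P.pp
  have hp2 : P.p ≠ 2 := by have := P.hp5; omega
  have : NeZero P.p := ⟨hp.ne_zero⟩
  have hM'0 : M' ≠ 0 := by
    rintro rfl
    exact absurd hcond.pos (by simp)
  have : NeZero M' := ⟨hM'0⟩
  have hpM' : ¬ P.p ∣ M' := by
    intro hd
    apply hcond.sq_not_dvd hp
    rw [pow_two]
    exact Nat.mul_dvd_mul_left _ hd
  obtain ⟨f, W, 𝔪, hf, hW, hmax, hpm, hcong⟩ := hmod
  obtain ⟨hGA, hGB⟩ := hgeo M' hpM'
  have hirrW : W.ModRepIsIrreducible P.p := by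
    obtain ⟨C, hC⟩ := hW
    exact HW.irreducible_of_variableChange C hC P.p hirr
  have hres : W.IsResiduallyModularOfLevel P.p (M' * P.p) := by
    rw [mul_comm]
    exact ⟨f, 𝔪, hf, hmax, hpm, hcong⟩
  obtain ⟨g, 𝔪', hg, hmax', hpm', hcong'⟩ := top40_of_littleRam W (model_Δ_ne_zero P hW) hp hp2
    hirrW (fun A hA Q t hQ ht ht0 hχ _ =>
      littleRam_of_model P (hcond.p_dvd_abc (Dvd.intro _ rfl)) hW A hA Q t hQ ht ht0 hχ) hGA hGB hres
  exact ⟨M', Dvd.intro_left _ rfl, hpM', g, W, 𝔪', hg, hW, hmax', hpm', hcong'⟩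

end Fermat.Agent.S44
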